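import Fermat.Agent.LT.T6.H288.IndexSpec

/-!
# Row LT, tower T6, sub-leaf T6.12g.1 `BallIndexC` (helper459, OFF-MAIN)

`[ϖ^{-n} 𝒪 : ϖ^{-n'} 𝒪] = q ^ (n - n')` for `n' ≤ n` in a field with a valuation in `ℤᵐ⁰` which has
a uniformiser and a residue system of `q` elements (`IsLocalField k q`; completeness and
characteristic zero are not used).

Route: one step `[ball (m+1) : ball m] = q` by the bijection `t ↦ ϖ^{-(m+1)} t` from the residue
system onto the quotient, then multiplicativity of the relative index in towers.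

Result: `ballIndexC459 : H288.BallIndexC` (frozen Prop of `H288/IndexSpec.lean`,
sha256 `cba4b102…`).
-/

set_option autoImplicit false

noncomputable section

namespace Fermat.Agent.LT.T6.H459

open Fermat.Agent.LT.T6 Fermat.Agent.LT.T6.H288

variable {k : Type} [Field k] [Valued k Γ₀]

/-- In `ℤᵐ⁰`: `γ < 1 ↔ γ ≤ exp (-1)`. -/
theorem lt_one_iff_le_exp459 (γ : Γ₀) : γ < 1 ↔ γ ≤ WithZero.exp (-1 : ℤ) := by
  rcases eq_or_ne γ 0 with rfl | h
  · constructor
    · intro _
      exact zero_le
    · intro _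
      exact zero_lt_one
  · obtain ⟨a, rfl⟩ : ∃ a : ℤ, γ = WithZero.exp a :=
      ⟨WithZero.log γ, (WithZero.exp_log h).symm⟩
    rw [← WithZero.exp_zero (M := ℤ), WithZero.exp_lt_exp, WithZero.exp_le_exp]
    omega

theorem mem_ball459 (n : ℤ) (x : k) : x ∈ ball k n ↔ Valued.v x ≤ WithZero.exp n := Iff.rfl

theorem ball_mono459 {n n' : ℤ} (h : n' ≤ n) : ball k n' ≤ ball k n :=
  fun _ hx => le_trans hx (WithZero.exp_le_exp.2 h)

/-- **One step**: `[ball (m + 1) : ball m] = q`. -/
theorem ball_relIndex_succ459 (q : ℕ) (hk : IsLocalField k q) (m : ℤ) :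
    (ball k m).relIndex (ball k (m + 1)) = q := by
  obtain ⟨ϖ, hϖ⟩ := hk.unif
  obtain ⟨T, hT, hT1, hTne, hTs⟩ := hk.residue
  have hϖ0 : ϖ ≠ 0 := by
    intro h
    rw [h, map_zero] at hϖ
    exact WithZero.exp_ne_zero hϖ.symm
  -- the scaling element
  obtain ⟨a, ha0, hva⟩ : ∃ a : k, a ≠ 0 ∧ Valued.v a = WithZero.exp (m + 1) := by
    refine ⟨ϖ ^ (-(m + 1)), zpow_ne_zero _ hϖ0, ?_⟩
    rw [map_zpow₀, hϖ, ← WithZero.exp_zsmul]
    congr 1
    simp
  have hmem : ∀ t ∈ T, a * t ∈ ball k (m + 1) := by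
    intro t ht
    rw [mem_ball459, map_mul, hva]
    calc WithZero.exp (m + 1) * Valued.v t ≤ WithZero.exp (m + 1) * 1 := by
          gcongr
          exact hT1 t ht
      _ = WithZero.exp (m + 1) := mul_one _
  rw [AddSubgroup.relIndex, AddSubgroup.index_eq_card, ← hT, ← Nat.card_eq_finsetCard T]
  symm
  refine Nat.card_congr (Equiv.ofBijective
    (fun t : T => (QuotientAddGroup.mk (⟨a * (t : k), hmem t t.2⟩ : ball k (m + 1)) :
      ball k (m + 1) ⧸ (ball k m).addSubgroupOf (ball k (m + 1)))) ⟨?_, ?_⟩)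
  · -- injective
    rintro ⟨t, ht⟩ ⟨t', ht'⟩ h
    have h1 := QuotientAddGroup.eq.1 h
    rw [AddSubgroup.mem_addSubgroupOf] at h1
    have h2 : Valued.v (-(a * t) + a * t') ≤ WithZero.exp m := h1
    have h3 : -(a * t) + a * t' = a * (t' - t) := by ring
    rw [h3, map_mul, hva, WithZero.exp_add] at h2
    by_contra hne
    have hne' : t' ≠ t := fun h => hne (by subst h; rfl)
    have h4 := hTne t' ht' t ht hne'
    rw [h4, mul_one] at h2
    have : WithZero.exp m * WithZero.exp (1 : ℤ) ≤ WithZero.exp m * 1 := by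
      rw [mul_one]
      exact h2
    rw [← WithZero.exp_add, mul_one, WithZero.exp_le_exp] at this
    omega
  · -- surjective
    intro x
    induction x using QuotientAddGroup.induction_on with
    | H x =>
      obtain ⟨x, hx⟩ := x
      have hx' : Valued.v x ≤ WithZero.exp (m + 1) := hx
      have hz : Valued.v (a⁻¹ * x) ≤ 1 := by
        rw [map_mul, map_inv₀, hva]
        calc (WithZero.exp (m + 1))⁻¹ * Valued.v x
            ≤ (WithZero.exp (m + 1))⁻¹ * WithZero.exp (m + 1) := by
              gcongr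
          _ = 1 := inv_mul_cancel₀ WithZero.exp_ne_zero
      obtain ⟨t, ht, htz⟩ := hTs _ hz
      refine ⟨⟨t, ht⟩, ?_⟩
      rw [QuotientAddGroup.eq, AddSubgroup.mem_addSubgroupOf]
      show Valued.v (-(a * t) + x) ≤ WithZero.exp m
      have h3 : -(a * t) + x = a * (a⁻¹ * x - t) := by
        field_simp
        ring
      rw [h3, map_mul, hva]
      have h5 := (lt_one_iff_le_exp459 _).1 htz
      calc WithZero.exp (m + 1) * Valued.v (a⁻¹ * x - t)
          ≤ WithZero.exp (m + 1) * WithZero.exp (-1 : ℤ) := by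
            gcongr
        _ = WithZero.exp m := by
            rw [← WithZero.exp_add]
            congr 1
            ring

/-- `[ball (n' + d) : ball n'] = q ^ d`. -/
theorem ball_relIndex_add459 (q : ℕ) (hk : IsLocalField k q) (n' : ℤ) (d : ℕ) :
    (ball k n').relIndex (ball k (n' + d)) = q ^ d := by
  induction d with
  | zero =>
    simp only [Nat.cast_zero, add_zero, pow_zero]
    exact AddSubgroup.relIndex_self _
  | succ d ih =>
    have h1 : ball k n' ≤ ball k (n' + d) := ball_mono459 (by omega)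
    have h2 : ball k (n' + d) ≤ ball k (n' + (d + 1 : ℕ)) := ball_mono459 (by push_cast; omega)
    have h3 := AddSubgroup.relIndex_mul_relIndex _ _ _ h1 h2
    have h4 : (ball k (n' + d)).relIndex (ball k (n' + (d + 1 : ℕ))) = q := by
      have := ball_relIndex_succ459 q hk (n' + d)
      have e : n' + (d + 1 : ℕ) = n' + d + 1 := by push_cast; ring
      rw [e]
      exact this
    rw [← h3, ih, h4, pow_succ]

/-- **T6.12g.1 `BallIndexC`.** -/
theorem ballIndexC459 : BallIndexC := by
  intro k _ _ q hk n n' h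
  have e : n = n' + ((n - n').toNat : ℤ) := by
    rw [Int.toNat_of_nonneg (by omega)]
    ring
  conv_lhs => rw [e]
  exact ball_relIndex_add459 q hk n' _

end Fermat.Agent.LT.T6.H459

end
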